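import Mathlib

/-!
# Row LT, tower T6, leaf T6.28 `ArchEllId` (registry 1263): SPEC of the owner (helper781)

OFF-MAIN.  Mathlib only.  Definitions and ONE Prop; the proof is in `LT/T6/H781/EllId.lean`.

THE ELLIPTIC IDENTITY of the archimedean matching `ℂ/ℝ` (memo `coord/LT-T6-interface.md` v4 of
helper22, "Why (3)"), as a statement of calculus on profiles.

* `abelT g x = ∫_ℝ g(x + u²) du`                               (the Abel transform `A g` of `H²`);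
* `tailI Φ X = ∫_{t > X} Φ(t) dt`               (`π⁻¹ ×` the Abel transform of `H³` of `Φ ∘ ρ_ℂ`);
* `ellDown g θ = ∫_{τ>0} g(1 + 2 sin²θ sinh²τ) sinh τ dτ`
  (`O_{k_θ}(f₀) = 4π · ellDown g₀ θ`, `O_{k_θ}(f₁) = 4π √2 cos θ · ellDown G₁ θ`);
* `ellUp Φ θ = ∫_{τ>0} ∫_ℝ Φ(2 cosh²β (1 + sin²(θ/2) sinh²τ) - 1) cosh²β sinh τ dβ dτ`
  (`TO_{k_{θ/2}}(φ) = 2π vol · ellUp Φ θ` with `β = 2b`:
  `ρ_ℂ(a_{-b} y_τ a_{-b}) = 2 cosh²(2b) (1 + sin²(θ/2) sinh²τ) - 1`, checked numerically);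
* `IsProfile g`: continuous on `[1, ∞)`, zero from some point on.

`ArchEllIdC`: if `g₀`, `G₁` are Abel-matched to `Φ` with the constant `κ`
(`√2 (A g₀)(x) = 2 c(x) (A G₁)(x) = κ Ψ(c(x))`, `c(x) = √((x+1)/2)`, `Ψ = tailI Φ`: the hyperbolic
matching `F_{f₀}(t) = F_{f₁}(t) = κ Ψ(cosh (t/2))`), then at every regular elliptic angle
`ellDown g₀ θ + √2 cos θ · ellDown G₁ θ = (κ/π) · ellUp Φ θ`.

Proof on paper (all steps are Fubini for continuous compactly supported functions, polar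
coordinates and one-dimensional substitutions):
(A) `π · ellDown g θ = ∫_{p>0} (A g)(1 + p²) / (2 sin²θ + p²) dp`
    (polar coordinates in `(p, u)`, `∫_{-π/2}^{π/2} dψ / (m² + r² cos²ψ) = π / (m √(m²+r²))`,
    `r = m sinh τ`);
(B) `ellUp Φ θ = (1/2) ∫_{v>0} Ψ(cosh v) / (cosh v - cos θ) dv`
    ((A) for `g_β(y) = Φ(2 cosh²β y - 1)`, `m = |sin (θ/2)|`; then
    `∫∫ Φ(2cosh²β (1+p²+u²) - 1) cosh²β du dβ = π Ψ(1+2p²) / (2 √(1+p²))`, `p = sinh (v/2)`);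
(C) `p = √2 sinh v` in (A) for `g₀` and `G₁`:
    `ellDown g₀ θ + √2 cos θ ellDown G₁ θ = (κ/2π) ∫_{v>0} Ψ(cosh v) / (cosh v - cos θ) dv`.
Numerical check of (A), (B): `/tmp` scripts of the owner (6 digits), and the script of helper22.
-/

set_option autoImplicit false

open MeasureTheory

noncomputable section

namespace Fermat.Agent.LT.T6.H781

/-- The Abel transform of `H²` on profiles: `(A g)(x) = ∫_ℝ g(x + u²) du`. -/
def abelT (g : ℝ → ℂ) (x : ℝ) : ℂ := ∫ u : ℝ, g (x + u ^ 2)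

/-- The tail integral `Ψ(X) = ∫_{t > X} Φ(t) dt`. -/
def tailI (Φ : ℝ → ℂ) (X : ℝ) : ℂ := ∫ t in Set.Ioi X, Φ t

/-- The elliptic orbital integral downstairs, as an integral of the profile. -/
def ellDown (g : ℝ → ℂ) (θ : ℝ) : ℂ :=
  ∫ τ in Set.Ioi (0 : ℝ), g (1 + 2 * Real.sin θ ^ 2 * Real.sinh τ ^ 2) * ((Real.sinh τ : ℝ) : ℂ)

/-- The twisted elliptic orbital integral upstairs, as an integral of the profile. -/
def ellUp (Φ : ℝ → ℂ) (θ : ℝ) : ℂ :=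
  ∫ τ in Set.Ioi (0 : ℝ), ∫ β : ℝ,
    Φ (2 * Real.cosh β ^ 2 * (1 + Real.sin (θ / 2) ^ 2 * Real.sinh τ ^ 2) - 1) *
      ((Real.cosh β ^ 2 * Real.sinh τ : ℝ) : ℂ)

/-- The common value of both sides: `∫_{v>0} Ψ(cosh v) / (cosh v - cos θ) dv`. -/
def ellKer (Ψ : ℝ → ℂ) (θ : ℝ) : ℂ :=
  ∫ v in Set.Ioi (0 : ℝ), Ψ (Real.cosh v) / ((Real.cosh v - Real.cos θ : ℝ) : ℂ)

/-- A profile: continuous on `[1, ∞)` and zero from some point on. -/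
def IsProfile (g : ℝ → ℂ) : Prop :=
  ContinuousOn g (Set.Ici 1) ∧ ∃ R : ℝ, ∀ y : ℝ, R ≤ y → g y = 0

/-- **T6.28 (A)**: the elliptic orbital integral downstairs in terms of the Abel transform. -/
def EllDownC : Prop :=
  ∀ (g : ℝ → ℂ), IsProfile g → ∀ θ : ℝ, Real.sin θ ≠ 0 →
    ((Real.pi : ℝ) : ℂ) * ellDown g θ =
      ∫ p in Set.Ioi (0 : ℝ), abelT g (1 + p ^ 2) / ((2 * Real.sin θ ^ 2 + p ^ 2 : ℝ) : ℂ)

/-- **T6.28 (B)**: the twisted elliptic orbital integral upstairs in terms of the tail integral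
(the Abel transform of `H³`). -/
def EllUpC : Prop :=
  ∀ (Φ : ℝ → ℂ), IsProfile Φ → ∀ θ : ℝ, Real.sin θ ≠ 0 →
    ellUp Φ θ = (1 / 2 : ℂ) * ellKer (tailI Φ) θ

/-- **T6.28 `ArchEllId`**: THE ELLIPTIC IDENTITY for Abel-matched profiles. -/
def ArchEllIdC : Prop :=
  ∀ (g₀ G₁ Φ : ℝ → ℂ) (κ : ℂ), IsProfile g₀ → IsProfile G₁ → IsProfile Φ →
    (∀ x : ℝ, 1 ≤ x →
      abelT g₀ x = κ * tailI Φ (Real.sqrt ((x + 1) / 2)) / ((Real.sqrt 2 : ℝ) : ℂ)) →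
    (∀ x : ℝ, 1 ≤ x →
      abelT G₁ x = κ * tailI Φ (Real.sqrt ((x + 1) / 2)) /
        ((2 * Real.sqrt ((x + 1) / 2) : ℝ) : ℂ)) →
    ∀ θ : ℝ, Real.sin θ ≠ 0 →
      ellDown g₀ θ + ((Real.sqrt 2 * Real.cos θ : ℝ) : ℂ) * ellDown G₁ θ
        = κ / ((Real.pi : ℝ) : ℂ) * ellUp Φ θ

/-- The formal top of the leaf: (A) and (B) give the identity — proved in `EllId.lean`. -/
def ArchEllIdTopC : Prop := EllDownC → EllUpC → ArchEllIdC

end Fermat.Agent.LT.T6.H781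

end
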