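import Mathlib
import Fermat.Agent.LT.T6.H781.EllSpec

/-!
# Row LT, tower T6, leaf T6.28 (helper781): tools

OFF-MAIN.  Mathlib only.  One-dimensional substitutions (all by
`integral_image_eq_integral_abs_deriv_smul`, no integrability hypothesis), the polar coordinates
in iterated form, integrability of continuous compactly supported functions on restricted
products, and the extension of a profile to a continuous function on `ℝ`.
-/

set_option autoImplicit false

open MeasureTheory Set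

noncomputable section

namespace Fermat.Agent.LT.T6.H781

/-! ## Substitutions -/

theorem image_sinh_Ioi781 {a b : ℝ} (ha : 0 < a) (hb : 0 < b) :
    (fun τ : ℝ => a * Real.sinh (b * τ)) '' Ioi 0 = Ioi 0 := by
  ext y
  constructor
  · rintro ⟨τ, hτ, rfl⟩
    have h1 : 0 < Real.sinh (b * τ) := Real.sinh_pos_iff.2 (mul_pos hb hτ)
    exact mul_pos ha h1
  · intro hy
    have hy' : (0 : ℝ) < y := hy
    refine ⟨Real.arsinh (y / a) / b, ?_, ?_⟩
    · have h1 : 0 < Real.arsinh (y / a) := Real.arsinh_pos_iff.2 (div_pos hy' ha)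
      exact div_pos h1 hb
    · simp only
      rw [mul_div_cancel₀ _ hb.ne', Real.sinh_arsinh, mul_div_cancel₀ _ ha.ne']

/-- The substitution `r = a sinh (b τ)` on `(0, ∞)`. -/
theorem integral_subst_sinh781 {a b : ℝ} (ha : 0 < a) (hb : 0 < b) (g : ℝ → ℂ) :
    ∫ r in Ioi (0 : ℝ), g r =
      ∫ τ in Ioi (0 : ℝ), ((a * b * Real.cosh (b * τ) : ℝ) : ℂ) * g (a * Real.sinh (b * τ)) := by
  have hd : ∀ x ∈ Ioi (0 : ℝ), HasDerivWithinAt (fun τ : ℝ => a * Real.sinh (b * τ))
      (a * (Real.cosh (b * x) * b)) (Ioi 0) x := by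
    intro x _
    have h1 : HasDerivAt (fun τ : ℝ => b * τ) b x := by
      simpa using (hasDerivAt_id x).const_mul b
    exact (((Real.hasDerivAt_sinh (b * x)).comp x h1).const_mul a).hasDerivWithinAt
  have hinj : InjOn (fun τ : ℝ => a * Real.sinh (b * τ)) (Ioi 0) := by
    intro x _ y _ h
    have h1 : Real.sinh (b * x) = Real.sinh (b * y) := mul_left_cancel₀ ha.ne' h
    exact mul_left_cancel₀ hb.ne' (Real.sinh_injective h1)
  have h := integral_image_eq_integral_abs_deriv_smul measurableSet_Ioi hd hinj g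
  rw [image_sinh_Ioi781 ha hb] at h
  rw [h]
  refine setIntegral_congr_fun measurableSet_Ioi fun τ _ => ?_
  have hpos : 0 < a * (Real.cosh (b * τ) * b) :=
    mul_pos ha (mul_pos (Real.cosh_pos _) hb)
  simp only [abs_of_pos hpos, Complex.real_smul]
  congr 2
  ring

/-- The substitution `S = sinh β` on `ℝ`. -/
theorem integral_subst_sinh_univ781 (g : ℝ → ℂ) :
    ∫ S : ℝ, g S = ∫ β : ℝ, ((Real.cosh β : ℝ) : ℂ) * g (Real.sinh β) := by
  have hd : ∀ x ∈ (univ : Set ℝ), HasDerivWithinAt Real.sinh (Real.cosh x) univ x :=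
    fun x _ => (Real.hasDerivAt_sinh x).hasDerivWithinAt
  have hinj : InjOn Real.sinh (univ : Set ℝ) := Real.sinh_injective.injOn
  have h := integral_image_eq_integral_abs_deriv_smul MeasurableSet.univ hd hinj g
  rw [image_univ, Real.sinh_surjective.range_eq, setIntegral_univ, setIntegral_univ] at h
  rw [h]
  refine integral_congr_ae (Filter.Eventually.of_forall fun β => ?_)
  simp only [abs_of_pos (Real.cosh_pos β), Complex.real_smul]

theorem image_affine_sq_Ioi781 (c : ℝ) :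
    (fun r : ℝ => c + 2 * r ^ 2) '' Ioi 0 = Ioi c := by
  ext y
  constructor
  · rintro ⟨r, hr, rfl⟩
    have hr' : (0 : ℝ) < r := hr
    have : 0 < 2 * r ^ 2 := by positivity
    simpa using this
  · intro hy
    have hy' : c < y := hy
    have h1 : 0 < (y - c) / 2 := by linarith
    refine ⟨Real.sqrt ((y - c) / 2), Real.sqrt_pos.2 h1, ?_⟩
    simp only
    rw [Real.sq_sqrt h1.le]
    ring

/-- The substitution `t = c + 2 r²` on `(0, ∞)`. -/
theorem integral_subst_sq781 (c : ℝ) (g : ℝ → ℂ) :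
    ∫ t in Ioi c, g t = ∫ r in Ioi (0 : ℝ), ((4 * r : ℝ) : ℂ) * g (c + 2 * r ^ 2) := by
  have hd : ∀ x ∈ Ioi (0 : ℝ), HasDerivWithinAt (fun r : ℝ => c + 2 * r ^ 2)
      (4 * x) (Ioi 0) x := by
    intro x _
    have h1 : HasDerivAt (fun r : ℝ => r ^ 2) (2 * x) x := by
      simpa using hasDerivAt_pow 2 x
    have h2 := (h1.const_mul 2).const_add c
    have h3 : 2 * (2 * x) = 4 * x := by ring
    rw [h3] at h2
    exact h2.hasDerivWithinAt
  have hinj : InjOn (fun r : ℝ => c + 2 * r ^ 2) (Ioi 0) := by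
    intro x hx y hy h
    have hx' : (0 : ℝ) < x := hx
    have hy' : (0 : ℝ) < y := hy
    have h1 : x ^ 2 = y ^ 2 := by
      have : c + 2 * x ^ 2 = c + 2 * y ^ 2 := h
      linarith
    nlinarith [sq_nonneg (x - y), sq_nonneg (x + y)]
  have h := integral_image_eq_integral_abs_deriv_smul measurableSet_Ioi hd hinj g
  rw [image_affine_sq_Ioi781 c] at h
  rw [h]
  refine setIntegral_congr_fun measurableSet_Ioi fun r hr => ?_
  have hr' : (0 : ℝ) < r := hr
  have hpos : 0 < 4 * r := by linarith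
  simp only [abs_of_pos hpos, Complex.real_smul]

/-- The angular integral: `∫_{-π/2}^{π/2} dψ / (m² + r² cos²ψ) = π / (m √(m² + r²))`. -/
theorem integral_angular781 {m : ℝ} (hm : 0 < m) (r : ℝ) :
    ∫ ψ in Ioo (-(Real.pi / 2)) (Real.pi / 2), (m ^ 2 + r ^ 2 * Real.cos ψ ^ 2)⁻¹
      = Real.pi / (m * Real.sqrt (m ^ 2 + r ^ 2)) := by
  set n : ℝ := Real.sqrt (m ^ 2 + r ^ 2) with hn
  have hn2 : n ^ 2 = m ^ 2 + r ^ 2 := Real.sq_sqrt (by positivity)
  have hnpos : 0 < n := Real.sqrt_pos.2 (by positivity)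
  have hd : ∀ x ∈ Ioo (-(Real.pi / 2)) (Real.pi / 2),
      HasDerivWithinAt (fun ψ : ℝ => m / n * Real.tan ψ)
        (m / n * (1 / Real.cos x ^ 2)) (Ioo (-(Real.pi / 2)) (Real.pi / 2)) x := by
    intro x hx
    have hc : Real.cos x ≠ 0 := (Real.cos_pos_of_mem_Ioo hx).ne'
    exact ((Real.hasDerivAt_tan hc).const_mul (m / n)).hasDerivWithinAt
  have hinj : InjOn (fun ψ : ℝ => m / n * Real.tan ψ) (Ioo (-(Real.pi / 2)) (Real.pi / 2)) := by
    intro x hx y hy h
    have h1 : Real.tan x = Real.tan y := mul_left_cancel₀ (div_pos hm hnpos).ne' h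
    exact Real.injOn_tan hx hy h1
  have himg : (fun ψ : ℝ => m / n * Real.tan ψ) '' Ioo (-(Real.pi / 2)) (Real.pi / 2) = univ := by
    have h1 : (fun ψ : ℝ => m / n * Real.tan ψ) = (fun y : ℝ => m / n * y) ∘ Real.tan := rfl
    rw [h1, image_comp, Real.image_tan_Ioo, image_univ]
    exact (mul_left_surjective₀ (div_pos hm hnpos).ne').range_eq
  have h := integral_image_eq_integral_abs_deriv_smul measurableSet_Ioo hd hinj
    (fun x : ℝ => (1 + x ^ 2)⁻¹)
  rw [himg, setIntegral_univ, integral_univ_inv_one_add_sq] at h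
  have hcongr : ∫ ψ in Ioo (-(Real.pi / 2)) (Real.pi / 2),
      |m / n * (1 / Real.cos ψ ^ 2)| • (1 + (m / n * Real.tan ψ) ^ 2)⁻¹
      = ∫ ψ in Ioo (-(Real.pi / 2)) (Real.pi / 2),
        (m * n) * (m ^ 2 + r ^ 2 * Real.cos ψ ^ 2)⁻¹ := by
    refine setIntegral_congr_fun measurableSet_Ioo fun ψ hψ => ?_
    have hc : 0 < Real.cos ψ := Real.cos_pos_of_mem_Ioo hψ
    have hpos : 0 < m / n * (1 / Real.cos ψ ^ 2) := by positivity
    have hs : Real.sin ψ ^ 2 = 1 - Real.cos ψ ^ 2 := by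
      have := Real.sin_sq_add_cos_sq ψ
      linarith
    have hD : 0 < m ^ 2 + r ^ 2 * Real.cos ψ ^ 2 := by positivity
    simp only [abs_of_pos hpos, smul_eq_mul, Real.tan_eq_sin_div_cos]
    have key : 1 + (m / n * (Real.sin ψ / Real.cos ψ)) ^ 2
        = (m ^ 2 + r ^ 2 * Real.cos ψ ^ 2) / (n ^ 2 * Real.cos ψ ^ 2) := by
      field_simp
      rw [hs, hn2]
      ring
    rw [key]
    field_simp
  rw [hcongr, integral_const_mul] at h
  have hmn : m * n ≠ 0 := (mul_pos hm hnpos).ne'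
  rw [eq_div_iff hmn, mul_comm]
  exact h.symm

end Fermat.Agent.LT.T6.H781

end
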