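import Mathlib
import Fermat.Agent.LT.T6.H781.EllTools

/-!
# Row LT, tower T6, leaf T6.28 (helper781): part (A), the elliptic orbital integral downstairs

OFF-MAIN.  Mathlib only.  Polar coordinates in iterated form, the extension of a profile to a
continuous function on `ℝ`, the core identity

`π ∫_{τ>0} g(1 + m² sinh²τ) sinh τ dτ = ∫_{p>0} (∫_ℝ g(1 + p² + u²) du) / (m² + p²) dp`

and `EllDownC`.
-/

set_option autoImplicit false

open MeasureTheory Set

noncomputable section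

namespace Fermat.Agent.LT.T6.H781

/-- Polar coordinates in iterated form. -/
theorem integral_polar781 {f : ℝ × ℝ → ℂ} (hf : Integrable f) :
    ∫ z, f z = ∫ r in Ioi (0 : ℝ), ∫ ψ in Ioo (-Real.pi) Real.pi,
      ((r : ℝ) : ℂ) * f (r * Real.cos ψ, r * Real.sin ψ) := by
  rw [← integral_comp_polarCoord_symm]
  have hint : IntegrableOn (fun p : ℝ × ℝ => p.1 • f (polarCoord.symm p))
      (Ioi (0 : ℝ) ×ˢ Ioo (-Real.pi) Real.pi) := by
    have h1 : IntegrableOn f (polarCoord.symm '' polarCoord.target) := hf.integrableOn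
    rw [integrableOn_image_iff_integrableOn_abs_det_fderiv_smul volume
      polarCoord.open_target.measurableSet
      (fun p _ => (hasFDerivAt_polarCoord_symm p).hasFDerivWithinAt)
      polarCoord.symm.injOn] at h1
    simp_rw [det_fderivPolarCoordSymm] at h1
    refine IntegrableOn.congr_fun h1 (fun x hx => ?_) polarCoord.open_target.measurableSet
    have hx1 : (0 : ℝ) < x.1 := hx.1
    simp only [abs_of_pos hx1]
  have h2 := setIntegral_prod (fun p : ℝ × ℝ => p.1 • f (polarCoord.symm p)) hint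
  have h3 : polarCoord.target = Ioi (0 : ℝ) ×ˢ Ioo (-Real.pi) Real.pi := rfl
  rw [h3]
  rw [show (volume : Measure (ℝ × ℝ)) = (volume : Measure ℝ).prod (volume : Measure ℝ) from rfl]
  rw [h2]
  refine setIntegral_congr_fun measurableSet_Ioi fun r _ => ?_
  refine setIntegral_congr_fun measurableSet_Ioo fun ψ _ => ?_
  simp [polarCoord_symm_apply, Complex.real_smul]

theorem abs_le_of_sq_lt781 {x R : ℝ} (hR : 1 ≤ R) (h : x ^ 2 < R) : x ∈ Icc (-R) R := by
  have h1 : x ^ 2 < R ^ 2 := lt_of_lt_of_le h (by nlinarith)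
  have h2 : |x| < R := abs_lt_of_sq_lt_sq h1 (by linarith)
  exact ⟨(abs_lt.1 h2).1.le, (abs_lt.1 h2).2.le⟩

/-- **(A), core form**: `g` continuous on `ℝ`, zero on `[R, ∞)`, `m > 0`. -/
theorem ellDownCore781 {g : ℝ → ℂ} {R : ℝ} (hg : Continuous g) (hR : 1 ≤ R)
    (h0 : ∀ y, R ≤ y → g y = 0) {m : ℝ} (hm : 0 < m) :
    ((Real.pi : ℝ) : ℂ) *
        ∫ τ in Ioi (0 : ℝ), g (1 + m ^ 2 * Real.sinh τ ^ 2) * ((Real.sinh τ : ℝ) : ℂ)
      = ∫ p in Ioi (0 : ℝ), (∫ u : ℝ, g (1 + p ^ 2 + u ^ 2)) / ((m ^ 2 + p ^ 2 : ℝ) : ℂ) := by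
  set F : ℝ × ℝ → ℂ := fun z => g (1 + z.1 ^ 2 + z.2 ^ 2) / ((m ^ 2 + z.1 ^ 2 : ℝ) : ℂ) with hF
  have hden : ∀ x : ℝ, ((m ^ 2 + x ^ 2 : ℝ) : ℂ) ≠ 0 := fun x => by
    have : (m ^ 2 + x ^ 2 : ℝ) ≠ 0 := by positivity
    exact_mod_cast this
  have hFc : Continuous F := by
    refine Continuous.div (by fun_prop) (by fun_prop) (fun z => hden z.1)
  have hFs : HasCompactSupport F := by
    refine HasCompactSupport.intro
      (isCompact_Icc.prod isCompact_Icc : IsCompact (Icc (-R) R ×ˢ Icc (-R) R)) fun z hz => ?_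
    have hz' : R ≤ 1 + z.1 ^ 2 + z.2 ^ 2 := by
      by_contra hlt
      push Not at hlt
      apply hz
      have h1 : z.1 ^ 2 < R := by nlinarith [sq_nonneg z.2]
      have h2 : z.2 ^ 2 < R := by nlinarith [sq_nonneg z.1]
      exact ⟨abs_le_of_sq_lt781 hR h1, abs_le_of_sq_lt781 hR h2⟩
    simp only [hF, h0 _ hz', zero_div]
  have hFi : Integrable F := hFc.integrable_of_hasCompactSupport hFs
  have hS : MeasurableSet (Ioi (0 : ℝ) ×ˢ (univ : Set ℝ)) :=
    measurableSet_Ioi.prod MeasurableSet.univ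
  -- the right-hand side as an integral over the half plane
  have e1 : ∫ p in Ioi (0 : ℝ), (∫ u : ℝ, g (1 + p ^ 2 + u ^ 2)) / ((m ^ 2 + p ^ 2 : ℝ) : ℂ)
      = ∫ z, (Ioi (0 : ℝ) ×ˢ (univ : Set ℝ)).indicator F z := by
    rw [integral_indicator hS]
    have h1 := setIntegral_prod F (s := Ioi (0 : ℝ)) (t := (univ : Set ℝ)) hFi.integrableOn
    rw [show (volume : Measure (ℝ × ℝ)) = (volume : Measure ℝ).prod (volume : Measure ℝ) from rfl,
      h1]
    refine setIntegral_congr_fun measurableSet_Ioi fun p _ => ?_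
    simp only [hF, setIntegral_univ]
    rw [integral_div]
  rw [e1, integral_polar781 (hFi.indicator hS)]
  -- the angular integral
  have e2 : ∀ r ∈ Ioi (0 : ℝ), ∫ ψ in Ioo (-Real.pi) Real.pi,
      ((r : ℝ) : ℂ) * (Ioi (0 : ℝ) ×ˢ (univ : Set ℝ)).indicator F
        (r * Real.cos ψ, r * Real.sin ψ)
      = ((r * (Real.pi / (m * Real.sqrt (m ^ 2 + r ^ 2))) : ℝ) : ℂ) * g (1 + r ^ 2) := by
    intro r hr
    have hr' : (0 : ℝ) < r := hr
    have hcongr : ∀ ψ ∈ Ioo (-Real.pi) Real.pi,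
        ((r : ℝ) : ℂ) * (Ioi (0 : ℝ) ×ˢ (univ : Set ℝ)).indicator F
          (r * Real.cos ψ, r * Real.sin ψ)
        = (Ioo (-(Real.pi / 2)) (Real.pi / 2)).indicator
          (fun ψ => ((r : ℝ) : ℂ) * g (1 + r ^ 2) *
            (((m ^ 2 + r ^ 2 * Real.cos ψ ^ 2)⁻¹ : ℝ) : ℂ)) ψ := by
      intro ψ hψ
      by_cases hc : ψ ∈ Ioo (-(Real.pi / 2)) (Real.pi / 2)
      · have hcos : 0 < Real.cos ψ := Real.cos_pos_of_mem_Ioo hc
        have hmem : (r * Real.cos ψ, r * Real.sin ψ) ∈ Ioi (0 : ℝ) ×ˢ (univ : Set ℝ) :=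
          ⟨mul_pos hr' hcos, mem_univ _⟩
        rw [indicator_of_mem hc, indicator_of_mem hmem]
        simp only [hF]
        have h1 : 1 + (r * Real.cos ψ) ^ 2 + (r * Real.sin ψ) ^ 2 = 1 + r ^ 2 := by
          have := Real.sin_sq_add_cos_sq ψ
          nlinarith
        rw [h1]
        push_cast
        rw [div_eq_mul_inv]
        ring
      · have hcos : Real.cos ψ ≤ 0 := by
          rcases le_or_gt (Real.pi / 2) ψ with h | h
          · exact Real.cos_nonpos_of_pi_div_two_le_of_le h (by linarith [hψ.2, Real.pi_pos])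
          · have h2 : ψ ≤ -(Real.pi / 2) := by
              by_contra h3
              push Not at h3
              exact hc ⟨h3, h⟩
            rw [← Real.cos_neg]
            exact Real.cos_nonpos_of_pi_div_two_le_of_le (by linarith)
              (by linarith [hψ.1, Real.pi_pos])
        have hmem : (r * Real.cos ψ, r * Real.sin ψ) ∉ Ioi (0 : ℝ) ×ˢ (univ : Set ℝ) := by
          rintro ⟨h1, -⟩
          have h1' : 0 < r * Real.cos ψ := h1
          nlinarith
        rw [indicator_of_notMem hc, indicator_of_notMem hmem, mul_zero]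
    rw [setIntegral_congr_fun measurableSet_Ioo hcongr, setIntegral_indicator measurableSet_Ioo]
    have hsub : Ioo (-Real.pi) Real.pi ∩ Ioo (-(Real.pi / 2)) (Real.pi / 2)
        = Ioo (-(Real.pi / 2)) (Real.pi / 2) := by
      apply inter_eq_right.2
      intro x hx
      exact ⟨by linarith [hx.1, Real.pi_pos], by linarith [hx.2, Real.pi_pos]⟩
    rw [hsub, integral_const_mul, integral_complex_ofReal, integral_angular781 hm r]
    push_cast
    ring
  rw [setIntegral_congr_fun measurableSet_Ioi e2]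
  -- the substitution `r = m sinh τ`
  have e3 := integral_subst_sinh781 hm one_pos
    (fun r : ℝ => ((r * (Real.pi / (m * Real.sqrt (m ^ 2 + r ^ 2))) : ℝ) : ℂ) * g (1 + r ^ 2))
  rw [e3, ← integral_const_mul]
  symm
  refine setIntegral_congr_fun measurableSet_Ioi fun τ _ => ?_
  have hsq : Real.sqrt (m ^ 2 + (m * Real.sinh τ) ^ 2) = m * Real.cosh τ := by
    have h1 : m ^ 2 + (m * Real.sinh τ) ^ 2 = (m * Real.cosh τ) ^ 2 := by
      rw [mul_pow, mul_pow, Real.cosh_sq]
      ring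
    rw [h1, Real.sqrt_sq (by positivity)]
  have hch : Real.cosh τ ≠ 0 := (Real.cosh_pos τ).ne'
  simp only [one_mul, mul_one]
  rw [hsq]
  have h2 : (m * Real.sinh τ) ^ 2 = m ^ 2 * Real.sinh τ ^ 2 := by ring
  rw [h2]
  have h3 : m * Real.cosh τ * (m * Real.sinh τ * (Real.pi / (m * (m * Real.cosh τ))))
      = Real.pi * Real.sinh τ := by
    field_simp
  rw [← mul_assoc, ← Complex.ofReal_mul, h3]
  push_cast
  ring

/-! ## Profiles -/

/-- The extension of a profile to `ℝ`: constant on `(-∞, 1]`. -/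
def profExt781 (g : ℝ → ℂ) : ℝ → ℂ := fun y => g (max y 1)

theorem profExt781_of_le {g : ℝ → ℂ} {y : ℝ} (hy : 1 ≤ y) : profExt781 g y = g y := by
  simp [profExt781, max_eq_left hy]

theorem continuous_profExt781 {g : ℝ → ℂ} (hg : ContinuousOn g (Ici 1)) :
    Continuous (profExt781 g) := by
  have h1 : Continuous fun y : ℝ => max y 1 := by fun_prop
  exact hg.comp_continuous h1 (fun y => le_max_right y 1)

theorem profExt781_zero {g : ℝ → ℂ} {R : ℝ} (h0 : ∀ y, R ≤ y → g y = 0) {y : ℝ}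
    (hy : max R 1 ≤ y) : profExt781 g y = 0 := by
  have h1 : (1 : ℝ) ≤ y := le_trans (le_max_right R 1) hy
  rw [profExt781_of_le h1]
  exact h0 y (le_trans (le_max_left R 1) hy)

/-- **(A) for profiles**, with a general `m > 0`. -/
theorem ellDownProfile781 {g : ℝ → ℂ} (hg : IsProfile g) {m : ℝ} (hm : 0 < m) :
    ((Real.pi : ℝ) : ℂ) *
        ∫ τ in Ioi (0 : ℝ), g (1 + m ^ 2 * Real.sinh τ ^ 2) * ((Real.sinh τ : ℝ) : ℂ)
      = ∫ p in Ioi (0 : ℝ), abelT g (1 + p ^ 2) / ((m ^ 2 + p ^ 2 : ℝ) : ℂ) := by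
  obtain ⟨hc, R, h0⟩ := hg
  have core := ellDownCore781 (continuous_profExt781 hc) (le_max_right R 1)
    (fun y hy => profExt781_zero h0 hy) hm
  have e1 : ∫ τ in Ioi (0 : ℝ), g (1 + m ^ 2 * Real.sinh τ ^ 2) * ((Real.sinh τ : ℝ) : ℂ)
      = ∫ τ in Ioi (0 : ℝ),
          profExt781 g (1 + m ^ 2 * Real.sinh τ ^ 2) * ((Real.sinh τ : ℝ) : ℂ) := by
    refine setIntegral_congr_fun measurableSet_Ioi fun τ _ => ?_
    rw [profExt781_of_le]
    nlinarith [sq_nonneg (m * Real.sinh τ)]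
  rw [e1, core]
  refine setIntegral_congr_fun measurableSet_Ioi fun p _ => ?_
  simp only [abelT]
  congr 1
  refine integral_congr_ae (Filter.Eventually.of_forall fun u => ?_)
  show profExt781 g (1 + p ^ 2 + u ^ 2) = g (1 + p ^ 2 + u ^ 2)
  rw [profExt781_of_le]
  nlinarith [sq_nonneg p, sq_nonneg u]

/-- **T6.28 (A)**. -/
theorem ellDownC781 : EllDownC := by
  intro g hg θ hθ
  have hspos : 0 < |Real.sin θ| := abs_pos.2 hθ
  have hmpos : 0 < Real.sqrt 2 * |Real.sin θ| := mul_pos (Real.sqrt_pos.2 two_pos) hspos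
  have hm2 : (Real.sqrt 2 * |Real.sin θ|) ^ 2 = 2 * Real.sin θ ^ 2 := by
    rw [mul_pow, Real.sq_sqrt (by norm_num), sq_abs]
  have h := ellDownProfile781 hg hmpos
  rw [hm2] at h
  exact h

end Fermat.Agent.LT.T6.H781

end
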