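import Mathlib
import Fermat.Agent.LT.T6.H781.EllDown

/-!
# Row LT, tower T6, leaf T6.28 (helper781): part (B), the twisted elliptic orbital integral

OFF-MAIN.  Mathlib only.
-/

set_option autoImplicit false

open MeasureTheory Set

noncomputable section

namespace Fermat.Agent.LT.T6.H781

/-! ## Elementary bounds and compact supports -/

theorem abs_le_cosh781 (v : ℝ) : |v| ≤ Real.cosh v := by
  have h1 : |v| ≤ Real.sinh |v| := Real.self_le_sinh_iff.2 (abs_nonneg v)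
  have h2 : Real.sinh |v| < Real.cosh |v| := Real.sinh_lt_cosh _
  rw [Real.cosh_abs] at h2
  linarith

theorem abs_le_cosh_sq781 (v : ℝ) : |v| ≤ Real.cosh v ^ 2 := by
  have h1 := abs_le_cosh781 v
  have h2 := Real.one_le_cosh v
  nlinarith

theorem one_le_cosh_sq781 (v : ℝ) : 1 ≤ Real.cosh v ^ 2 := by
  have h2 := Real.one_le_cosh v
  nlinarith

theorem lt_sq_of_lt_abs781 {x R : ℝ} (hR : 1 ≤ R) (h : R < |x|) : R < x ^ 2 := by
  have h1 : R * R < |x| * |x| := mul_self_lt_mul_self (by linarith) h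
  rw [abs_mul_abs_self] at h1
  nlinarith

theorem hasCompactSupport_box781 {f : ℝ × ℝ → ℂ} {B : ℝ}
    (h0 : ∀ z : ℝ × ℝ, (B < |z.1| ∨ B < |z.2|) → f z = 0) : HasCompactSupport f := by
  refine HasCompactSupport.intro
    (isCompact_Icc.prod isCompact_Icc : IsCompact (Icc (-B) B ×ˢ Icc (-B) B)) fun z hz => ?_
  apply h0
  by_contra hcon
  push Not at hcon
  apply hz
  exact ⟨abs_le.1 hcon.1, abs_le.1 hcon.2⟩

theorem hasCompactSupport_interval781 {f : ℝ → ℂ} {B : ℝ}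
    (h0 : ∀ v : ℝ, B < |v| → f v = 0) : HasCompactSupport f := by
  refine HasCompactSupport.intro (isCompact_Icc : IsCompact (Icc (-B) B)) fun v hv => ?_
  apply h0
  by_contra hcon
  push Not at hcon
  exact hv (abs_le.1 hcon)

/-! ## The tail integral -/

theorem tailI_eq_interval781 {g : ℝ → ℂ} {R : ℝ} (h0 : ∀ y, R ≤ y → g y = 0) (X : ℝ) :
    tailI g X = ∫ t in X..R, g t := by
  unfold tailI
  rcases le_or_gt X R with h | h
  · rw [intervalIntegral.integral_of_le h]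
    refine setIntegral_eq_of_subset_of_forall_sdiff_eq_zero measurableSet_Ioi
      Ioc_subset_Ioi_self ?_
    intro x hx
    have hx1 : X < x := hx.1
    have hx2 : ¬ (x ∈ Ioc X R) := hx.2
    apply h0
    by_contra hcon
    push Not at hcon
    exact hx2 ⟨hx1, hcon.le⟩
  · rw [intervalIntegral.integral_of_ge h.le]
    have h1 : ∫ t in Ioi X, g t = 0 :=
      setIntegral_eq_zero_of_forall_eq_zero (fun x hx => h0 x (le_of_lt (lt_trans h hx)))
    have h2 : ∫ t in Ioc R X, g t = 0 :=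
      setIntegral_eq_zero_of_forall_eq_zero (fun x hx => h0 x hx.1.le)
    rw [h1, h2, neg_zero]

theorem continuous_tailI781 {g : ℝ → ℂ} {R : ℝ} (hg : Continuous g)
    (h0 : ∀ y, R ≤ y → g y = 0) : Continuous (tailI g) := by
  have h1 : tailI g = fun X => -∫ t in R..X, g t := by
    funext X
    rw [tailI_eq_interval781 h0, intervalIntegral.integral_symm]
  rw [h1]
  exact (intervalIntegral.continuous_primitive (fun a b => hg.intervalIntegrable a b) R).neg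

theorem tailI_zero781 {g : ℝ → ℂ} {R : ℝ} (h0 : ∀ y, R ≤ y → g y = 0) {X : ℝ} (hX : R ≤ X) :
    tailI g X = 0 := by
  unfold tailI
  exact setIntegral_eq_zero_of_forall_eq_zero (fun x hx => h0 x (le_trans hX (le_of_lt hx)))

theorem tailI_profExt781 (g : ℝ → ℂ) {X : ℝ} (hX : 1 ≤ X) :
    tailI (profExt781 g) X = tailI g X := by
  unfold tailI
  refine setIntegral_congr_fun measurableSet_Ioi fun t ht => ?_
  exact profExt781_of_le (le_trans hX (le_of_lt ht))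

/-! ## The radial integral -/

theorem integrable_radial781 {g : ℝ → ℂ} {R : ℝ} (hg : Continuous g) (hR : 1 ≤ R)
    (h0 : ∀ y, R ≤ y → g y = 0) {c : ℝ} (hc : 1 ≤ c) :
    Integrable (fun z : ℝ × ℝ => g (c + 2 * z.1 ^ 2 + 2 * z.2 ^ 2)) := by
  have hcont : Continuous fun z : ℝ × ℝ => g (c + 2 * z.1 ^ 2 + 2 * z.2 ^ 2) := by fun_prop
  have hsupp : HasCompactSupport fun z : ℝ × ℝ => g (c + 2 * z.1 ^ 2 + 2 * z.2 ^ 2) := by
    refine hasCompactSupport_box781 (B := R) fun z hz => ?_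
    apply h0
    rcases hz with h | h
    · have := lt_sq_of_lt_abs781 hR h
      nlinarith [sq_nonneg z.2]
    · have := lt_sq_of_lt_abs781 hR h
      nlinarith [sq_nonneg z.1]
  exact hcont.integrable_of_hasCompactSupport hsupp

theorem integral_radial781 {g : ℝ → ℂ} {R : ℝ} (hg : Continuous g) (hR : 1 ≤ R)
    (h0 : ∀ y, R ≤ y → g y = 0) {c : ℝ} (hc : 1 ≤ c) :
    ∫ z : ℝ × ℝ, g (c + 2 * z.1 ^ 2 + 2 * z.2 ^ 2) = ((Real.pi / 2 : ℝ) : ℂ) * tailI g c := by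
  rw [integral_polar781 (integrable_radial781 hg hR h0 hc)]
  rw [tailI, integral_subst_sq781 c g, ← integral_const_mul]
  refine setIntegral_congr_fun measurableSet_Ioi fun r hr => ?_
  have h1 : ∀ ψ : ℝ, c + 2 * (r * Real.cos ψ) ^ 2 + 2 * (r * Real.sin ψ) ^ 2 = c + 2 * r ^ 2 := by
    intro ψ
    have := Real.sin_sq_add_cos_sq ψ
    nlinarith
  simp only [h1]
  rw [setIntegral_const]
  have hv : (volume : Measure ℝ).real (Ioo (-Real.pi) Real.pi) = 2 * Real.pi := by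
    rw [Measure.real, Real.volume_Ioo, ENNReal.toReal_ofReal (by linarith [Real.pi_pos])]
    ring
  rw [hv, Complex.real_smul]
  push_cast
  ring

/-- The inner double integral for fixed `p`. -/
theorem integral_inner781 {g : ℝ → ℂ} {R : ℝ} (hg : Continuous g) (hR : 1 ≤ R)
    (h0 : ∀ y, R ≤ y → g y = 0) (p : ℝ) :
    ∫ β : ℝ, ∫ u : ℝ,
        g (2 * Real.cosh β ^ 2 * (1 + p ^ 2 + u ^ 2) - 1) * ((Real.cosh β ^ 2 : ℝ) : ℂ)
      = (((Real.sqrt (1 + p ^ 2))⁻¹ * (Real.pi / 2) : ℝ) : ℂ) * tailI g (1 + 2 * p ^ 2) := by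
  have s1 : ∀ β : ℝ, ∫ u : ℝ,
      g (2 * Real.cosh β ^ 2 * (1 + p ^ 2 + u ^ 2) - 1) * ((Real.cosh β ^ 2 : ℝ) : ℂ)
      = ((Real.cosh β : ℝ) : ℂ) *
        (fun S : ℝ => ∫ w : ℝ, g (2 * (1 + S ^ 2) * (1 + p ^ 2) - 1 + 2 * w ^ 2))
          (Real.sinh β) := by
    intro β
    have hch : 0 < Real.cosh β := Real.cosh_pos β
    have h1 := Measure.integral_comp_mul_left
      (fun w : ℝ => g (2 * (1 + Real.sinh β ^ 2) * (1 + p ^ 2) - 1 + 2 * w ^ 2)) (Real.cosh β)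
    rw [integral_mul_const]
    have h2 : ∀ u : ℝ, 2 * Real.cosh β ^ 2 * (1 + p ^ 2 + u ^ 2) - 1
        = 2 * (1 + Real.sinh β ^ 2) * (1 + p ^ 2) - 1 + 2 * (Real.cosh β * u) ^ 2 := by
      intro u
      linear_combination (2 * (1 + p ^ 2)) * Real.cosh_sq β
    simp only [h2]
    rw [h1, abs_of_pos (inv_pos.2 hch), Complex.real_smul]
    have hchc : ((Real.cosh β : ℝ) : ℂ) ≠ 0 := by exact_mod_cast hch.ne'
    push_cast
    field_simp
  simp only [s1]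
  rw [← integral_subst_sinh_univ781
    (fun S : ℝ => ∫ w : ℝ, g (2 * (1 + S ^ 2) * (1 + p ^ 2) - 1 + 2 * w ^ 2))]
  have hq : 0 < Real.sqrt (1 + p ^ 2) := Real.sqrt_pos.2 (by positivity)
  have h3 := Measure.integral_comp_mul_left
    (fun S' : ℝ => ∫ w : ℝ, g (1 + 2 * p ^ 2 + 2 * S' ^ 2 + 2 * w ^ 2)) (Real.sqrt (1 + p ^ 2))
  have h4 : ∀ S : ℝ, (∫ w : ℝ, g (2 * (1 + S ^ 2) * (1 + p ^ 2) - 1 + 2 * w ^ 2))
      = ∫ w : ℝ, g (1 + 2 * p ^ 2 + 2 * (Real.sqrt (1 + p ^ 2) * S) ^ 2 + 2 * w ^ 2) := by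
    intro S
    have h5 : (Real.sqrt (1 + p ^ 2) * S) ^ 2 = (1 + p ^ 2) * S ^ 2 := by
      rw [mul_pow, Real.sq_sqrt (by positivity)]
    rw [h5]
    refine integral_congr_ae (Filter.Eventually.of_forall fun w => ?_)
    show g _ = g _
    congr 1
    ring
  simp only [h4]
  rw [h3]
  have hc : (1 : ℝ) ≤ 1 + 2 * p ^ 2 := by nlinarith [sq_nonneg p]
  have h6 := integral_prod (fun z : ℝ × ℝ => g (1 + 2 * p ^ 2 + 2 * z.1 ^ 2 + 2 * z.2 ^ 2))
    (integrable_radial781 hg hR h0 hc)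
  have h7 := integral_radial781 hg hR h0 hc
  rw [show (volume : Measure (ℝ × ℝ)) = (volume : Measure ℝ).prod (volume : Measure ℝ) from rfl]
    at h7
  rw [h6] at h7
  rw [h7, abs_of_pos (inv_pos.2 hq), Complex.real_smul]
  push_cast
  ring

/-! ## The fibre integral -/

/-- The `β`-integral as a function of `y` (over a compact interval). -/
def upFib781 (g : ℝ → ℂ) (B : ℝ) (y : ℝ) : ℂ :=
  ∫ β in Icc (-B) B, g (2 * Real.cosh β ^ 2 * y - 1) * ((Real.cosh β ^ 2 : ℝ) : ℂ)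

theorem continuous_upFib781 {g : ℝ → ℂ} (hg : Continuous g) (B : ℝ) :
    Continuous (upFib781 g B) := by
  have hc : Continuous (Function.uncurry
      (fun (y β : ℝ) => g (2 * Real.cosh β ^ 2 * y - 1) * ((Real.cosh β ^ 2 : ℝ) : ℂ))) := by
    have h1 : Continuous fun z : ℝ × ℝ => Real.cosh z.2 := Real.continuous_cosh.comp continuous_snd
    have h2 : Continuous fun z : ℝ × ℝ => 2 * Real.cosh z.2 ^ 2 * z.1 - 1 :=
      (((h1.pow 2).const_mul 2).mul continuous_fst).sub continuous_const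
    have h3 : Continuous fun z : ℝ × ℝ => ((Real.cosh z.2 ^ 2 : ℝ) : ℂ) :=
      Complex.continuous_ofReal.comp (h1.pow 2)
    exact (hg.comp h2).mul h3
  exact continuous_parametric_integral_of_continuous (μ := (volume : Measure ℝ)) hc
    (isCompact_Icc : IsCompact (Icc (-B) B))

theorem fib_zero_of_abs781 {g : ℝ → ℂ} {R : ℝ} (hR : 1 ≤ R) (h0 : ∀ y, R ≤ y → g y = 0)
    {y : ℝ} (hy : 1 ≤ y) {β : ℝ} (hβ : R < |β|) : g (2 * Real.cosh β ^ 2 * y - 1) = 0 := by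
  apply h0
  have h1 := abs_le_cosh_sq781 β
  have h2 : Real.cosh β ^ 2 ≤ Real.cosh β ^ 2 * y := by
    have := one_le_cosh_sq781 β
    nlinarith
  nlinarith

theorem fib_zero_of_le781 {g : ℝ → ℂ} {R : ℝ} (hR : 1 ≤ R) (h0 : ∀ y, R ≤ y → g y = 0)
    {y : ℝ} (hy : R ≤ y) (β : ℝ) : g (2 * Real.cosh β ^ 2 * y - 1) = 0 := by
  apply h0
  have h1 := one_le_cosh_sq781 β
  have h2 : y ≤ Real.cosh β ^ 2 * y := by nlinarith
  nlinarith

theorem upFib781_zero {g : ℝ → ℂ} {R : ℝ} (hR : 1 ≤ R) (h0 : ∀ y, R ≤ y → g y = 0)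
    (y : ℝ) (hy : R ≤ y) : upFib781 g R y = 0 := by
  unfold upFib781
  refine setIntegral_eq_zero_of_forall_eq_zero fun β _ => ?_
  rw [fib_zero_of_le781 hR h0 hy β, zero_mul]

theorem upFib781_eq {g : ℝ → ℂ} {R : ℝ} (hR : 1 ≤ R) (h0 : ∀ y, R ≤ y → g y = 0)
    {y : ℝ} (hy : 1 ≤ y) :
    upFib781 g R y = ∫ β : ℝ, g (2 * Real.cosh β ^ 2 * y - 1) * ((Real.cosh β ^ 2 : ℝ) : ℂ) := by
  unfold upFib781
  refine setIntegral_eq_integral_of_forall_compl_eq_zero fun β hβ => ?_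
  have h1 : R < |β| := by
    by_contra hcon
    push Not at hcon
    exact hβ (abs_le.1 hcon)
  rw [fib_zero_of_abs781 hR h0 hy h1, zero_mul]

/-- The swap of `u` and `β` for fixed `p`. -/
theorem integral_swap_inner781 {g : ℝ → ℂ} {R : ℝ} (hg : Continuous g) (hR : 1 ≤ R)
    (h0 : ∀ y, R ≤ y → g y = 0) (p : ℝ) :
    ∫ u : ℝ, ∫ β : ℝ,
        g (2 * Real.cosh β ^ 2 * (1 + p ^ 2 + u ^ 2) - 1) * ((Real.cosh β ^ 2 : ℝ) : ℂ)
      = ∫ β : ℝ, ∫ u : ℝ,
        g (2 * Real.cosh β ^ 2 * (1 + p ^ 2 + u ^ 2) - 1) * ((Real.cosh β ^ 2 : ℝ) : ℂ) := by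
  have hc : Continuous (Function.uncurry (fun (u β : ℝ) =>
      g (2 * Real.cosh β ^ 2 * (1 + p ^ 2 + u ^ 2) - 1) * ((Real.cosh β ^ 2 : ℝ) : ℂ))) := by
    have h1 : Continuous fun z : ℝ × ℝ => Real.cosh z.2 := Real.continuous_cosh.comp continuous_snd
    have h2 : Continuous fun z : ℝ × ℝ => 2 * Real.cosh z.2 ^ 2 * (1 + p ^ 2 + z.1 ^ 2) - 1 :=
      (((h1.pow 2).const_mul 2).mul (continuous_const.add (continuous_fst.pow 2))).sub
        continuous_const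
    have h3 : Continuous fun z : ℝ × ℝ => ((Real.cosh z.2 ^ 2 : ℝ) : ℂ) :=
      Complex.continuous_ofReal.comp (h1.pow 2)
    exact (hg.comp h2).mul h3
  have hs : HasCompactSupport (Function.uncurry (fun (u β : ℝ) =>
      g (2 * Real.cosh β ^ 2 * (1 + p ^ 2 + u ^ 2) - 1) * ((Real.cosh β ^ 2 : ℝ) : ℂ))) := by
    refine hasCompactSupport_box781 (B := R) fun z hz => ?_
    show g (2 * Real.cosh z.2 ^ 2 * (1 + p ^ 2 + z.1 ^ 2) - 1) * ((Real.cosh z.2 ^ 2 : ℝ) : ℂ) = 0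
    rcases hz with h | h
    · have h1 := lt_sq_of_lt_abs781 hR h
      have h2 : R ≤ 1 + p ^ 2 + z.1 ^ 2 := by nlinarith [sq_nonneg p]
      rw [fib_zero_of_le781 hR h0 h2 z.2, zero_mul]
    · have h2 : (1 : ℝ) ≤ 1 + p ^ 2 + z.1 ^ 2 := by nlinarith [sq_nonneg p, sq_nonneg z.1]
      rw [fib_zero_of_abs781 hR h0 h2 h, zero_mul]
  exact integral_integral_swap_of_hasCompactSupport hc hs

/-! ## (B) -/

theorem sin_half_ne_zero781 {θ : ℝ} (hθ : Real.sin θ ≠ 0) : Real.sin (θ / 2) ≠ 0 := by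
  intro h
  apply hθ
  have h1 : Real.sin θ = 2 * Real.sin (θ / 2) * Real.cos (θ / 2) := by
    rw [← Real.sin_two_mul]
    congr 1
    ring
  rw [h1, h]
  ring

theorem sin_half_sq781 (θ : ℝ) : Real.sin (θ / 2) ^ 2 = (1 - Real.cos θ) / 2 := by
  have h1 : Real.cos θ = 2 * Real.cos (θ / 2) ^ 2 - 1 := by
    rw [← Real.cos_two_mul]
    congr 1
    ring
  have h2 := Real.sin_sq_add_cos_sq (θ / 2)
  linarith

theorem sinh_half_sq781 (v : ℝ) : Real.sinh (1 / 2 * v) ^ 2 = (Real.cosh v - 1) / 2 := by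
  have h1 : Real.cosh v = Real.cosh (1 / 2 * v) ^ 2 + Real.sinh (1 / 2 * v) ^ 2 := by
    rw [← Real.cosh_two_mul]
    congr 1
    ring
  have h2 := Real.cosh_sq (1 / 2 * v)
  linarith

/-- **T6.28 (B)**. -/
theorem ellUpC781 : EllUpC := by
  intro Φ hΦ θ hθ
  obtain ⟨hc, R₀, h00⟩ := hΦ
  have hg : Continuous (profExt781 Φ) := continuous_profExt781 hc
  have hR : (1 : ℝ) ≤ max R₀ 1 := le_max_right _ _
  have h0 : ∀ y, max R₀ 1 ≤ y → profExt781 Φ y = 0 := fun y hy => profExt781_zero h00 hy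
  have hσ : Real.sin (θ / 2) ≠ 0 := sin_half_ne_zero781 hθ
  have hm : 0 < |Real.sin (θ / 2)| := abs_pos.2 hσ
  have hm2 : |Real.sin (θ / 2)| ^ 2 = Real.sin (θ / 2) ^ 2 := sq_abs _
  have core := ellDownCore781 (continuous_upFib781 hg (max R₀ 1)) hR
    (upFib781_zero hR h0) hm
  rw [hm2] at core
  -- the left-hand side of `core` is `π · ellUp`
  have eL : ellUp Φ θ = ∫ τ in Ioi (0 : ℝ),
      upFib781 (profExt781 Φ) (max R₀ 1) (1 + Real.sin (θ / 2) ^ 2 * Real.sinh τ ^ 2)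
        * ((Real.sinh τ : ℝ) : ℂ) := by
    unfold ellUp
    refine setIntegral_congr_fun measurableSet_Ioi fun τ _ => ?_
    have hy : (1 : ℝ) ≤ 1 + Real.sin (θ / 2) ^ 2 * Real.sinh τ ^ 2 := by
      nlinarith [sq_nonneg (Real.sin (θ / 2) * Real.sinh τ)]
    show _ = upFib781 (profExt781 Φ) (max R₀ 1) (1 + Real.sin (θ / 2) ^ 2 * Real.sinh τ ^ 2)
        * ((Real.sinh τ : ℝ) : ℂ)
    rw [upFib781_eq hR h0 hy, ← integral_mul_const]
    refine integral_congr_ae (Filter.Eventually.of_forall fun β => ?_)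
    show Φ (2 * Real.cosh β ^ 2 * (1 + Real.sin (θ / 2) ^ 2 * Real.sinh τ ^ 2) - 1) *
        ((Real.cosh β ^ 2 * Real.sinh τ : ℝ) : ℂ)
      = profExt781 Φ (2 * Real.cosh β ^ 2 * (1 + Real.sin (θ / 2) ^ 2 * Real.sinh τ ^ 2) - 1) *
        ((Real.cosh β ^ 2 : ℝ) : ℂ) * ((Real.sinh τ : ℝ) : ℂ)
    have hy2 : (1 : ℝ) ≤
        2 * Real.cosh β ^ 2 * (1 + Real.sin (θ / 2) ^ 2 * Real.sinh τ ^ 2) - 1 := by
      have h1 := one_le_cosh_sq781 β
      nlinarith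
    rw [profExt781_of_le hy2]
    push_cast
    ring
  -- the right-hand side of `core`
  have eR : ∀ p ∈ Ioi (0 : ℝ),
      (∫ u : ℝ, upFib781 (profExt781 Φ) (max R₀ 1) (1 + p ^ 2 + u ^ 2)) /
        ((Real.sin (θ / 2) ^ 2 + p ^ 2 : ℝ) : ℂ)
      = (fun p : ℝ => ((Real.pi / 2 : ℝ) : ℂ) * tailI (profExt781 Φ) (1 + 2 * p ^ 2) /
          ((Real.sqrt (1 + p ^ 2) * (Real.sin (θ / 2) ^ 2 + p ^ 2) : ℝ) : ℂ)) p := by
    intro p _
    have h1 : ∫ u : ℝ, upFib781 (profExt781 Φ) (max R₀ 1) (1 + p ^ 2 + u ^ 2)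
        = ∫ u : ℝ, ∫ β : ℝ, profExt781 Φ (2 * Real.cosh β ^ 2 * (1 + p ^ 2 + u ^ 2) - 1) *
            ((Real.cosh β ^ 2 : ℝ) : ℂ) := by
      refine integral_congr_ae (Filter.Eventually.of_forall fun u => ?_)
      exact upFib781_eq hR h0 (by nlinarith [sq_nonneg p, sq_nonneg u])
    rw [h1, integral_swap_inner781 hg hR h0 p, integral_inner781 hg hR h0 p]
    have hq : 0 < Real.sqrt (1 + p ^ 2) := Real.sqrt_pos.2 (by positivity)
    have hqc : ((Real.sqrt (1 + p ^ 2) : ℝ) : ℂ) ≠ 0 := by exact_mod_cast hq.ne'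
    have hd : 0 < Real.sin (θ / 2) ^ 2 + p ^ 2 := by positivity
    have hdc : ((Real.sin (θ / 2) ^ 2 + p ^ 2 : ℝ) : ℂ) ≠ 0 := by exact_mod_cast hd.ne'
    simp only [Complex.ofReal_mul, Complex.ofReal_inv] at hqc hdc ⊢
    field_simp
  rw [setIntegral_congr_fun measurableSet_Ioi eR] at core
  -- the substitution `p = sinh (v / 2)`
  have eS := integral_subst_sinh781 one_pos (by norm_num : (0 : ℝ) < 1 / 2)
    (fun p : ℝ => ((Real.pi / 2 : ℝ) : ℂ) * tailI (profExt781 Φ) (1 + 2 * p ^ 2) /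
          ((Real.sqrt (1 + p ^ 2) * (Real.sin (θ / 2) ^ 2 + p ^ 2) : ℝ) : ℂ))
  rw [eS] at core
  have eK : ∀ v ∈ Ioi (0 : ℝ),
      ((1 * (1 / 2) * Real.cosh (1 / 2 * v) : ℝ) : ℂ) *
        (fun p : ℝ => ((Real.pi / 2 : ℝ) : ℂ) * tailI (profExt781 Φ) (1 + 2 * p ^ 2) /
          ((Real.sqrt (1 + p ^ 2) * (Real.sin (θ / 2) ^ 2 + p ^ 2) : ℝ) : ℂ))
          (1 * Real.sinh (1 / 2 * v))
      = ((Real.pi / 2 : ℝ) : ℂ) *
          (tailI Φ (Real.cosh v) / ((Real.cosh v - Real.cos θ : ℝ) : ℂ)) := by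
    intro v hv
    have hv' : (0 : ℝ) < v := hv
    have hch : 0 < Real.cosh (1 / 2 * v) := Real.cosh_pos _
    have e1 : 1 + 2 * (1 * Real.sinh (1 / 2 * v)) ^ 2 = Real.cosh v := by
      rw [one_mul, sinh_half_sq781]
      ring
    have e2 : Real.sqrt (1 + (1 * Real.sinh (1 / 2 * v)) ^ 2) = Real.cosh (1 / 2 * v) := by
      have h1 : 1 + (1 * Real.sinh (1 / 2 * v)) ^ 2 = Real.cosh (1 / 2 * v) ^ 2 := by
        rw [one_mul, Real.cosh_sq]
        ring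
      rw [h1, Real.sqrt_sq hch.le]
    have e3 : Real.sin (θ / 2) ^ 2 + (1 * Real.sinh (1 / 2 * v)) ^ 2
        = (Real.cosh v - Real.cos θ) / 2 := by
      rw [one_mul, sinh_half_sq781, sin_half_sq781]
      ring
    have hpos : 0 < Real.cosh v - Real.cos θ := by
      have h1 : 1 < Real.cosh v := Real.one_lt_cosh.2 hv'.ne'
      have h2 := Real.cos_le_one θ
      linarith
    have hposc : ((Real.cosh v - Real.cos θ : ℝ) : ℂ) ≠ 0 := by exact_mod_cast hpos.ne'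
    have hchc : ((Real.cosh (1 / 2 * v) : ℝ) : ℂ) ≠ 0 := by exact_mod_cast hch.ne'
    simp only [e1, e2, e3]
    rw [tailI_profExt781 Φ (Real.one_le_cosh v)]
    generalize Real.cosh (1 / 2 * v) = C at hchc ⊢
    generalize tailI Φ (Real.cosh v) = T
    generalize Real.cosh v - Real.cos θ = D at hposc ⊢
    simp only [Complex.ofReal_mul, Complex.ofReal_div, Complex.ofReal_one, Complex.ofReal_ofNat]
    field_simp
  rw [setIntegral_congr_fun measurableSet_Ioi eK, integral_const_mul, ← eL] at core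
  have hpi : ((Real.pi : ℝ) : ℂ) ≠ 0 := by exact_mod_cast Real.pi_pos.ne'
  unfold ellKer
  have h9 : ((Real.pi : ℝ) : ℂ) * ellUp Φ θ = ((Real.pi : ℝ) : ℂ) * ((1 / 2 : ℂ) *
      ∫ v in Ioi (0 : ℝ), tailI Φ (Real.cosh v) / ((Real.cosh v - Real.cos θ : ℝ) : ℂ)) := by
    rw [core]
    push_cast
    ring
  exact mul_left_cancel₀ hpi h9

end Fermat.Agent.LT.T6.H781

end
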