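import Mathlib
import Fermat.Agent.LT.T6.H781.EllUp

/-!
# Row LT, tower T6, leaf T6.28 `ArchEllId` (registry 1263, helper781): THE ELLIPTIC IDENTITY

OFF-MAIN.  Mathlib only.  `archEllId781 : ArchEllIdC` (Spec: `LT/T6/H781/EllSpec.lean`), from
(A) `ellDownC781` (`EllDown.lean`) and (B) `ellUpC781` (`EllUp.lean`) by the substitution
`p = √2 sinh v` and `sin²θ + sinh²v = (cosh v - cos θ)(cosh v + cos θ)`.
-/

set_option autoImplicit false

open MeasureTheory Set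

noncomputable section

namespace Fermat.Agent.LT.T6.H781

theorem integrableOn_ker781 {g : ℝ → ℂ} {R : ℝ} (hg : Continuous g)
    (h0 : ∀ y, R ≤ y → g y = 0) {s : ℝ} (hs : s ≠ 0) (k : ℝ → ℝ) (hk : Continuous k) :
    IntegrableOn (fun v : ℝ => tailI g (Real.cosh v) *
      ((k v / (s ^ 2 + Real.sinh v ^ 2) : ℝ) : ℂ)) (Ioi 0) := by
  have hs2 : 0 < s ^ 2 := by positivity
  have hcont : Continuous (fun v : ℝ => tailI g (Real.cosh v) *
      ((k v / (s ^ 2 + Real.sinh v ^ 2) : ℝ) : ℂ)) := by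
    have h1 : Continuous fun v : ℝ => tailI g (Real.cosh v) :=
      (continuous_tailI781 hg h0).comp Real.continuous_cosh
    have h2 : Continuous fun v : ℝ => k v / (s ^ 2 + Real.sinh v ^ 2) :=
      hk.div (continuous_const.add (Real.continuous_sinh.pow 2))
        (fun v => by nlinarith [sq_nonneg (Real.sinh v)])
    exact h1.mul (Complex.continuous_ofReal.comp h2)
  have hsupp : HasCompactSupport (fun v : ℝ => tailI g (Real.cosh v) *
      ((k v / (s ^ 2 + Real.sinh v ^ 2) : ℝ) : ℂ)) := by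
    refine hasCompactSupport_interval781 (B := R) fun v hv => ?_
    show tailI g (Real.cosh v) * _ = 0
    rw [tailI_zero781 h0 (le_trans hv.le (abs_le_cosh781 v)), zero_mul]
  exact (hcont.integrable_of_hasCompactSupport hsupp).integrableOn

theorem sqrt_arg781 (v : ℝ) :
    Real.sqrt ((1 + (Real.sqrt 2 * Real.sinh (1 * v)) ^ 2 + 1) / 2) = Real.cosh v := by
  have h1 : (1 + (Real.sqrt 2 * Real.sinh (1 * v)) ^ 2 + 1) / 2 = Real.cosh v ^ 2 := by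
    rw [one_mul, mul_pow, Real.sq_sqrt (by norm_num), Real.cosh_sq]
    ring
  rw [h1, Real.sqrt_sq (Real.cosh_pos v).le]

theorem den_arg781 (s v : ℝ) :
    2 * s ^ 2 + (Real.sqrt 2 * Real.sinh (1 * v)) ^ 2 = 2 * (s ^ 2 + Real.sinh v ^ 2) := by
  rw [one_mul, mul_pow, Real.sq_sqrt (by norm_num)]
  ring

/-- **T6.28, the formal top**: (A) and (B) give the elliptic identity. -/
theorem archEllIdTop781 : ArchEllIdTopC := by
  intro hA hB g₀ G₁ Φ κ hg₀ hG₁ hΦ h0 h1 θ hθ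
  have hBθ := hB Φ hΦ θ hθ
  have hA0 := hA g₀ hg₀ θ hθ
  have hA1 := hA G₁ hG₁ θ hθ
  obtain ⟨hc, R₀, h00⟩ := hΦ
  have hg : Continuous (profExt781 Φ) := continuous_profExt781 hc
  have hz : ∀ y, max R₀ 1 ≤ y → profExt781 Φ y = 0 := fun y hy => profExt781_zero h00 hy
  have i1 := integrableOn_ker781 hg hz hθ Real.cosh Real.continuous_cosh
  have i2 := integrableOn_ker781 hg hz hθ (fun _ => (1 : ℝ)) continuous_const
  have hs2 : 0 < Real.sin θ ^ 2 := by positivity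
  have hsq2 : ((Real.sqrt 2 : ℝ) : ℂ) ≠ 0 := by
    have : Real.sqrt 2 ≠ 0 := (Real.sqrt_pos.2 two_pos).ne'
    exact_mod_cast this
  have hsq2' : ((Real.sqrt 2 : ℝ) : ℂ) * ((Real.sqrt 2 : ℝ) : ℂ) = 2 := by
    rw [← Complex.ofReal_mul, Real.mul_self_sqrt (by norm_num)]
    norm_num
  -- (A) for `g₀`
  have a0 : ((Real.pi : ℝ) : ℂ) * ellDown g₀ θ = κ / 2 * ∫ v in Ioi (0 : ℝ),
      tailI (profExt781 Φ) (Real.cosh v) *
        ((Real.cosh v / (Real.sin θ ^ 2 + Real.sinh v ^ 2) : ℝ) : ℂ) := by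
    rw [hA0]
    have e0 : ∀ p ∈ Ioi (0 : ℝ),
        abelT g₀ (1 + p ^ 2) / ((2 * Real.sin θ ^ 2 + p ^ 2 : ℝ) : ℂ)
        = (fun p : ℝ => κ * tailI Φ (Real.sqrt ((1 + p ^ 2 + 1) / 2)) /
            ((Real.sqrt 2 : ℝ) : ℂ) / ((2 * Real.sin θ ^ 2 + p ^ 2 : ℝ) : ℂ)) p := by
      intro p _
      show _ = κ * tailI Φ (Real.sqrt ((1 + p ^ 2 + 1) / 2)) /
            ((Real.sqrt 2 : ℝ) : ℂ) / ((2 * Real.sin θ ^ 2 + p ^ 2 : ℝ) : ℂ)
      rw [h0 (1 + p ^ 2) (by nlinarith [sq_nonneg p])]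
    rw [setIntegral_congr_fun measurableSet_Ioi e0]
    have eS := integral_subst_sinh781 (Real.sqrt_pos.2 two_pos) one_pos
      (fun p : ℝ => κ * tailI Φ (Real.sqrt ((1 + p ^ 2 + 1) / 2)) /
            ((Real.sqrt 2 : ℝ) : ℂ) / ((2 * Real.sin θ ^ 2 + p ^ 2 : ℝ) : ℂ))
    rw [eS, ← integral_const_mul]
    refine setIntegral_congr_fun measurableSet_Ioi fun v _ => ?_
    show ((Real.sqrt 2 * 1 * Real.cosh (1 * v) : ℝ) : ℂ) *
        (κ * tailI Φ (Real.sqrt ((1 + (Real.sqrt 2 * Real.sinh (1 * v)) ^ 2 + 1) / 2)) /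
            ((Real.sqrt 2 : ℝ) : ℂ) /
            ((2 * Real.sin θ ^ 2 + (Real.sqrt 2 * Real.sinh (1 * v)) ^ 2 : ℝ) : ℂ))
      = κ / 2 * (tailI (profExt781 Φ) (Real.cosh v) *
        ((Real.cosh v / (Real.sin θ ^ 2 + Real.sinh v ^ 2) : ℝ) : ℂ))
    rw [sqrt_arg781, den_arg781, tailI_profExt781 Φ (Real.one_le_cosh v), one_mul, mul_one]
    have hD : 0 < Real.sin θ ^ 2 + Real.sinh v ^ 2 := by nlinarith [sq_nonneg (Real.sinh v)]
    have hDc : ((Real.sin θ ^ 2 + Real.sinh v ^ 2 : ℝ) : ℂ) ≠ 0 := by exact_mod_cast hD.ne'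
    generalize tailI Φ (Real.cosh v) = T
    generalize Real.sin θ ^ 2 + Real.sinh v ^ 2 = D at hDc ⊢
    generalize Real.cosh v = C
    simp only [Complex.ofReal_mul, Complex.ofReal_div, Complex.ofReal_ofNat]
    field_simp
  -- (A) for `G₁`
  have a1 : ((Real.pi : ℝ) : ℂ) * ellDown G₁ θ
      = κ * ((Real.sqrt 2 : ℝ) : ℂ) / 4 * ∫ v in Ioi (0 : ℝ),
      tailI (profExt781 Φ) (Real.cosh v) *
        (((1 : ℝ) / (Real.sin θ ^ 2 + Real.sinh v ^ 2) : ℝ) : ℂ) := by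
    rw [hA1]
    have e0 : ∀ p ∈ Ioi (0 : ℝ),
        abelT G₁ (1 + p ^ 2) / ((2 * Real.sin θ ^ 2 + p ^ 2 : ℝ) : ℂ)
        = (fun p : ℝ => κ * tailI Φ (Real.sqrt ((1 + p ^ 2 + 1) / 2)) /
            ((2 * Real.sqrt ((1 + p ^ 2 + 1) / 2) : ℝ) : ℂ) /
            ((2 * Real.sin θ ^ 2 + p ^ 2 : ℝ) : ℂ)) p := by
      intro p _
      show _ = κ * tailI Φ (Real.sqrt ((1 + p ^ 2 + 1) / 2)) /
            ((2 * Real.sqrt ((1 + p ^ 2 + 1) / 2) : ℝ) : ℂ) /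
            ((2 * Real.sin θ ^ 2 + p ^ 2 : ℝ) : ℂ)
      rw [h1 (1 + p ^ 2) (by nlinarith [sq_nonneg p])]
    rw [setIntegral_congr_fun measurableSet_Ioi e0]
    have eS := integral_subst_sinh781 (Real.sqrt_pos.2 two_pos) one_pos
      (fun p : ℝ => κ * tailI Φ (Real.sqrt ((1 + p ^ 2 + 1) / 2)) /
            ((2 * Real.sqrt ((1 + p ^ 2 + 1) / 2) : ℝ) : ℂ) /
            ((2 * Real.sin θ ^ 2 + p ^ 2 : ℝ) : ℂ))
    rw [eS, ← integral_const_mul]
    refine setIntegral_congr_fun measurableSet_Ioi fun v _ => ?_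
    show ((Real.sqrt 2 * 1 * Real.cosh (1 * v) : ℝ) : ℂ) *
        (κ * tailI Φ (Real.sqrt ((1 + (Real.sqrt 2 * Real.sinh (1 * v)) ^ 2 + 1) / 2)) /
            ((2 * Real.sqrt ((1 + (Real.sqrt 2 * Real.sinh (1 * v)) ^ 2 + 1) / 2) : ℝ) : ℂ) /
            ((2 * Real.sin θ ^ 2 + (Real.sqrt 2 * Real.sinh (1 * v)) ^ 2 : ℝ) : ℂ))
      = κ * ((Real.sqrt 2 : ℝ) : ℂ) / 4 * (tailI (profExt781 Φ) (Real.cosh v) *
        (((1 : ℝ) / (Real.sin θ ^ 2 + Real.sinh v ^ 2) : ℝ) : ℂ))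
    rw [sqrt_arg781, den_arg781, tailI_profExt781 Φ (Real.one_le_cosh v), one_mul, mul_one]
    have hD : 0 < Real.sin θ ^ 2 + Real.sinh v ^ 2 := by nlinarith [sq_nonneg (Real.sinh v)]
    have hDc : ((Real.sin θ ^ 2 + Real.sinh v ^ 2 : ℝ) : ℂ) ≠ 0 := by exact_mod_cast hD.ne'
    have hCc : ((Real.cosh v : ℝ) : ℂ) ≠ 0 := by exact_mod_cast (Real.cosh_pos v).ne'
    generalize tailI Φ (Real.cosh v) = T
    generalize Real.sin θ ^ 2 + Real.sinh v ^ 2 = D at hDc ⊢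
    generalize Real.cosh v = C at hCc ⊢
    generalize Real.sqrt 2 = q at hsq2 hsq2' ⊢
    simp only [Complex.ofReal_mul, Complex.ofReal_div, Complex.ofReal_ofNat, Complex.ofReal_one]
    field_simp
    ring
  -- the kernel
  have eK : ellKer (tailI Φ) θ
      = (∫ v in Ioi (0 : ℝ), tailI (profExt781 Φ) (Real.cosh v) *
          ((Real.cosh v / (Real.sin θ ^ 2 + Real.sinh v ^ 2) : ℝ) : ℂ))
        + ((Real.cos θ : ℝ) : ℂ) * ∫ v in Ioi (0 : ℝ), tailI (profExt781 Φ) (Real.cosh v) *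
          (((1 : ℝ) / (Real.sin θ ^ 2 + Real.sinh v ^ 2) : ℝ) : ℂ) := by
    rw [← integral_const_mul, ← integral_add i1 (i2.const_mul _)]
    unfold ellKer
    refine setIntegral_congr_fun measurableSet_Ioi fun v _ => ?_
    show tailI Φ (Real.cosh v) / ((Real.cosh v - Real.cos θ : ℝ) : ℂ)
      = tailI (profExt781 Φ) (Real.cosh v) *
          ((Real.cosh v / (Real.sin θ ^ 2 + Real.sinh v ^ 2) : ℝ) : ℂ)
        + ((Real.cos θ : ℝ) : ℂ) * (tailI (profExt781 Φ) (Real.cosh v) *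
          (((1 : ℝ) / (Real.sin θ ^ 2 + Real.sinh v ^ 2) : ℝ) : ℂ))
    rw [tailI_profExt781 Φ (Real.one_le_cosh v)]
    have hD : 0 < Real.sin θ ^ 2 + Real.sinh v ^ 2 := by nlinarith [sq_nonneg (Real.sinh v)]
    have hfac : Real.sin θ ^ 2 + Real.sinh v ^ 2
        = (Real.cosh v - Real.cos θ) * (Real.cosh v + Real.cos θ) := by
      have h1 := Real.sin_sq_add_cos_sq θ
      have h2 := Real.cosh_sq v
      nlinarith
    have hm : Real.cosh v - Real.cos θ ≠ 0 := by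
      intro h
      rw [hfac, h, zero_mul] at hD
      exact lt_irrefl _ hD
    have hp : Real.cosh v + Real.cos θ ≠ 0 := by
      intro h
      rw [hfac, h, mul_zero] at hD
      exact lt_irrefl _ hD
    have hmc : ((Real.cosh v : ℝ) : ℂ) - ((Real.cos θ : ℝ) : ℂ) ≠ 0 := by exact_mod_cast hm
    have hpc : ((Real.cosh v : ℝ) : ℂ) + ((Real.cos θ : ℝ) : ℂ) ≠ 0 := by exact_mod_cast hp
    rw [hfac]
    generalize tailI Φ (Real.cosh v) = T
    simp only [Complex.ofReal_mul, Complex.ofReal_div, Complex.ofReal_one, Complex.ofReal_sub,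
      Complex.ofReal_add]
    generalize ((Real.cosh v : ℝ) : ℂ) = C at hmc hpc ⊢
    generalize ((Real.cos θ : ℝ) : ℂ) = c at hmc hpc ⊢
    field_simp
  -- conclusion
  have hpi : ((Real.pi : ℝ) : ℂ) ≠ 0 := by exact_mod_cast Real.pi_pos.ne'
  have hfin : ((Real.pi : ℝ) : ℂ) *
      (ellDown g₀ θ + ((Real.sqrt 2 * Real.cos θ : ℝ) : ℂ) * ellDown G₁ θ)
      = ((Real.pi : ℝ) : ℂ) * (κ / ((Real.pi : ℝ) : ℂ) * ellUp Φ θ) := by
    have h3 : ((Real.pi : ℝ) : ℂ) *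
        (ellDown g₀ θ + ((Real.sqrt 2 * Real.cos θ : ℝ) : ℂ) * ellDown G₁ θ)
        = ((Real.pi : ℝ) : ℂ) * ellDown g₀ θ
          + ((Real.sqrt 2 : ℝ) : ℂ) * ((Real.cos θ : ℝ) : ℂ) *
            (((Real.pi : ℝ) : ℂ) * ellDown G₁ θ) := by
      push_cast
      ring
    rw [h3, a0, a1, hBθ, eK]
    have h4 : ∀ X : ℂ, ((Real.pi : ℝ) : ℂ) * (κ / ((Real.pi : ℝ) : ℂ) * X) = κ * X := by
      intro X
      field_simp
    rw [h4]
    linear_combination (((Real.cos θ : ℝ) : ℂ) * κ *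
      (∫ v in Ioi (0 : ℝ), tailI (profExt781 Φ) (Real.cosh v) *
          (((1 : ℝ) / (Real.sin θ ^ 2 + Real.sinh v ^ 2) : ℝ) : ℂ)) / 4) * hsq2'
  exact mul_left_cancel₀ hpi hfin

/-- **T6.28 `ArchEllId`**: THE ELLIPTIC IDENTITY. -/
theorem archEllId781 : ArchEllIdC := archEllIdTop781 ellDownC781 ellUpC781

end Fermat.Agent.LT.T6.H781

end
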